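import Fermat.Agent.S26.SpecDeg

/-!
# Row S26, block AMPLE — leaf FF5 / AMPLE-IND (helper86)

Transcendence degree of the function field of a smooth integral scheme over a perfect field,
via Kähler differentials, and the consequence needed by `Stmt.Alpha`:
a linear system of `g + 1` rational functions of *finite positive degree* on a smooth integral
scheme of relative dimension `g` has algebraically independent affine coordinates.

Main results (namespace `Fermat.Agent.S26.H86`):

* `finrank_kaehler_of_algebraicIndependent_of_isSeparable` :
  `dim_L Ω[L/K] = #ι` for a separating transcendence basis `v : ι → L`;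
* `finrank_kaehler_eq_trdeg_of_perfectField` : `dim_L Ω[L/K] = trdeg_K L` (`K` perfect,
  `L/K` finitely generated);
* `finrank_kaehler_fractionRing_of_isStandardSmooth` : `dim_F Ω[F/K] = g` for `F = Frac R`,
  `R` a standard smooth domain of relative dimension `g`;
* `trdeg_fractionRing_of_isStandardSmooth` : `trdeg_K Frac R = g`;
* `algebraicIndependent_of_isAlgebraic_of_trdeg` : `g` elements over which `F` is algebraic are
  algebraically independent when `trdeg_K F = g`;
* `trdeg_functionField` : `trdeg_K K(X) = g` for `X` integral, smooth of relative dimension `g`;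
* `ls_indep_of_deg_pos`, `abVar_indep_of_deg_pos` : `0 < LS.deg str w → LS.Indep str w`.
-/

set_option autoImplicit false
set_option linter.style.haveILetI false

universe u v w

open scoped TensorProduct
open KaehlerDifferential CategoryTheory AlgebraicGeometry

namespace Fermat.Agent.S26.H86

/-! ## Algebra -/

open scoped IntermediateField.algebraAdjoinAdjoin in
/-- Over a separably generated extension `L/K` with separating transcendence basis `v`,
the module of Kähler differentials has dimension `#ι`. -/
theorem finrank_kaehler_of_algebraicIndependent_of_isSeparable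
    {K : Type u} {L : Type v} {ι : Type w} [Field K] [Field L] [Algebra K L] [Fintype ι]
    {v : ι → L} (hb : AlgebraicIndependent K v)
    [Algebra.IsSeparable (IntermediateField.adjoin K (Set.range v)) L] :
    Module.finrank L Ω[L⁄K] = Fintype.card ι := by
  letI alg1 : Algebra (MvPolynomial ι K) (Algebra.adjoin K (Set.range v)) :=
    hb.aevalEquiv.toRingEquiv.toRingHom.toAlgebra
  letI alg2 : Algebra (MvPolynomial ι K) (IntermediateField.adjoin K (Set.range v)) :=
    ((algebraMap (Algebra.adjoin K (Set.range v)) (IntermediateField.adjoin K (Set.range v))).comp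
      (algebraMap (MvPolynomial ι K) (Algebra.adjoin K (Set.range v)))).toAlgebra
  letI alg3 : Algebra (MvPolynomial ι K) L :=
    ((algebraMap (IntermediateField.adjoin K (Set.range v)) L).comp
      (algebraMap (MvPolynomial ι K) (IntermediateField.adjoin K (Set.range v)))).toAlgebra
  haveI st1 : IsScalarTower (MvPolynomial ι K) (Algebra.adjoin K (Set.range v))
      (IntermediateField.adjoin K (Set.range v)) := IsScalarTower.of_algebraMap_eq' rfl
  haveI st2 : IsScalarTower (MvPolynomial ι K) (IntermediateField.adjoin K (Set.range v)) L :=
    IsScalarTower.of_algebraMap_eq' rfl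
  haveI st3 : IsScalarTower K (MvPolynomial ι K) L := by
    refine IsScalarTower.of_algebraMap_eq' ?_
    ext x
    change algebraMap K L x =
      ((hb.aevalEquiv (algebraMap K (MvPolynomial ι K) x) : Algebra.adjoin K (Set.range v)) : L)
    rw [AlgEquiv.commutes]
    rfl
  haveI fe1 : Algebra.FormallyEtale (MvPolynomial ι K) (Algebra.adjoin K (Set.range v)) :=
    Algebra.FormallyEtale.of_equiv (A := MvPolynomial ι K)
      (AlgEquiv.ofRingEquiv (f := hb.aevalEquiv.toRingEquiv) (fun x => rfl))
  haveI fe2 : Algebra.FormallyEtale (Algebra.adjoin K (Set.range v))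
      (IntermediateField.adjoin K (Set.range v)) :=
    .of_isLocalization (nonZeroDivisors _)
  haveI fe3 : Algebra.FormallyEtale (IntermediateField.adjoin K (Set.range v)) L :=
    Algebra.FormallyEtale.of_isSeparable _ L
  haveI fe4 : Algebra.FormallyEtale (MvPolynomial ι K)
      (IntermediateField.adjoin K (Set.range v)) :=
    .comp _ (Algebra.adjoin K (Set.range v)) _
  haveI fe5 : Algebra.FormallyEtale (MvPolynomial ι K) L :=
    .comp _ (IntermediateField.adjoin K (Set.range v)) _
  have e := KaehlerDifferential.tensorKaehlerEquivOfFormallyEtale K (MvPolynomial ι K) L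
  rw [← e.finrank_eq, Module.finrank_baseChange,
    Module.finrank_eq_card_basis (KaehlerDifferential.mvPolynomialBasis K ι)]

/-- Over a perfect field `K`, a finitely generated field extension `L` has
`dim_L Ω[L/K] = trdeg_K L`. -/
theorem finrank_kaehler_eq_trdeg_of_perfectField
    (K : Type u) (L : Type v) [Field K] [Field L] [Algebra K L] [PerfectField K]
    [Algebra.EssFiniteType K L] :
    (Module.finrank L Ω[L⁄K] : Cardinal.{v}) = Algebra.trdeg K L := by
  obtain ⟨s, hs, H⟩ := exists_isTranscendenceBasis_and_isSeparable_of_perfectField K L
  haveI : Algebra.IsSeparable (↥(IntermediateField.adjoin K (Set.range ((↑) : s → L)))) L := by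
    convert! H <;> simp
  rw [finrank_kaehler_of_algebraicIndependent_of_isSeparable hs.1, ← hs.cardinalMk_eq_trdeg]
  simp

/-- If `R` is a domain, standard smooth of relative dimension `g` over a field `K`, then its
fraction field `F` has `dim_F Ω[F/K] = g`. -/
theorem finrank_kaehler_fractionRing_of_isStandardSmooth
    (K : Type u) (R : Type v) (F : Type w) [Field K] [CommRing R] [IsDomain R] [Algebra K R]
    [Field F] [Algebra R F] [Algebra K F] [IsScalarTower K R F] [IsFractionRing R F] (g : ℕ)
    [Algebra.IsStandardSmoothOfRelativeDimension g K R] :
    Module.finrank F Ω[F⁄K] = g := by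
  haveI : Algebra.FormallyEtale R F := .of_isLocalization (nonZeroDivisors R)
  have e := KaehlerDifferential.tensorKaehlerEquivOfFormallyEtale K R F
  have h1 :=
    Algebra.IsStandardSmoothOfRelativeDimension.rank_kaehlerDifferential (R := K) (S := R) g
  haveI : Algebra.IsStandardSmooth K R :=
    Algebra.IsStandardSmoothOfRelativeDimension.isStandardSmooth g
  rw [← e.finrank_eq, Module.finrank_baseChange]
  exact Module.finrank_eq_of_rank_eq h1

/-- The fraction field of a finitely generated algebra is essentially of finite type. -/
theorem essFiniteType_fractionRing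
    (K : Type u) (R : Type v) (F : Type w) [CommRing K] [CommRing R] [Algebra K R]
    [CommRing F] [Algebra R F] [Algebra K F] [IsScalarTower K R F] [IsFractionRing R F]
    [Algebra.FiniteType K R] : Algebra.EssFiniteType K F := by
  haveI : Algebra.EssFiniteType R F := Algebra.EssFiniteType.of_isLocalization F (nonZeroDivisors R)
  exact Algebra.EssFiniteType.comp K R F

/-- If `R` is a domain, standard smooth of relative dimension `g` over a perfect field `K`, then
its fraction field has transcendence degree `g` over `K`. -/
theorem trdeg_fractionRing_of_isStandardSmooth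
    (K : Type u) (R : Type v) (F : Type w) [Field K] [PerfectField K] [CommRing R] [IsDomain R]
    [Algebra K R] [Field F] [Algebra R F] [Algebra K F] [IsScalarTower K R F]
    [IsFractionRing R F] (g : ℕ) [Algebra.IsStandardSmoothOfRelativeDimension g K R] :
    Algebra.trdeg K F = g := by
  haveI : Algebra.IsStandardSmooth K R :=
    Algebra.IsStandardSmoothOfRelativeDimension.isStandardSmooth g
  haveI : Algebra.FinitePresentation K R := Algebra.IsStandardSmooth.finitePresentation
  haveI : Algebra.FiniteType K R := Algebra.FiniteType.of_finitePresentation
  haveI : Algebra.EssFiniteType K F := essFiniteType_fractionRing K R F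
  rw [← finrank_kaehler_eq_trdeg_of_perfectField K F,
    finrank_kaehler_fractionRing_of_isStandardSmooth K R F g]

open scoped IntermediateField.algebraAdjoinAdjoin in
/-- If `trdeg_K F = g` and `F` is algebraic over `K(x₁, …, x_g)`, then `x₁, …, x_g` are
algebraically independent over `K`. -/
theorem algebraicIndependent_of_isAlgebraic_of_trdeg
    {K : Type u} {F : Type v} [Field K] [Field F] [Algebra K F] {g : ℕ}
    (htr : Algebra.trdeg K F = g) (x : Fin g → F)
    [Algebra.IsAlgebraic (IntermediateField.adjoin K (Set.range x)) F] :
    AlgebraicIndependent K x := by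
  haveI : Algebra.IsAlgebraic (Algebra.adjoin K (Set.range x))
      (IntermediateField.adjoin K (Set.range x)) :=
    IsLocalization.isAlgebraic _ (nonZeroDivisors (Algebra.adjoin K (Set.range x)))
  haveI : Algebra.IsAlgebraic (Algebra.adjoin K (Set.range x)) F :=
    Algebra.IsAlgebraic.trans _ (IntermediateField.adjoin K (Set.range x)) _
  have := Algebra.IsAlgebraic.isTranscendenceBasis_of_lift_le_trdeg_of_finite K x
    (by rw [htr]; simp)
  exact this.1

end Fermat.Agent.S26.H86

namespace Fermat.Agent.S26.H86

/-! ## Schemes -/

section Scheme

variable {K : Type u} [Field K] {X : Scheme.{u}} [IsIntegral X]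
  (str : X ⟶ Spec (CommRingCat.of K))

/-- The `K`-algebra structure on the function field of a scheme over `Spec K` given by `ffStr`. -/
@[reducible] noncomputable def ffAlgebra : Algebra K X.functionField := (ffStr str).toAlgebra

/-- Every nonempty open of `Spec K` is everything. -/
theorem opens_spec_field_eq_top (U : (Spec (CommRingCat.of K)).Opens)
    (y : Spec (CommRingCat.of K)) (hy : y ∈ U) : U = ⊤ := by
  rw [eq_top_iff]
  intro z _
  have : z = y := Subsingleton.elim (α := PrimeSpectrum K) z y
  rw [this]
  exact hy

/-- The function field of an integral scheme, smooth of relative dimension `g` over a perfect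
field `K`, has transcendence degree `g` over `K`. -/
theorem trdeg_functionField [PerfectField K] (g : ℕ) [SmoothOfRelativeDimension g str] :
    letI := ffAlgebra str
    Algebra.trdeg K X.functionField = g := by
  letI := ffAlgebra str
  obtain ⟨U, hU, V, hV, hxV, e, hsm⟩ :=
    SmoothOfRelativeDimension.exists_isStandardSmoothOfRelativeDimension (f := str) (n := g)
      (genericPoint X)
  obtain rfl : U = ⊤ := opens_spec_field_eq_top U (str (genericPoint X)) (e hxV)
  haveI : Nonempty V := ⟨⟨genericPoint X, hxV⟩⟩
  letI algR : Algebra K Γ(X, V) :=
    ((str.appLE ⊤ V e).hom.comp (Scheme.ΓSpecIso (CommRingCat.of K)).inv.hom).toAlgebra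
  haveI : IsScalarTower K Γ(X, V) X.functionField := by
    refine IsScalarTower.of_algebraMap_eq' ?_
    have h : str.appTop ≫ X.presheaf.germ ⊤ (genericPoint X) (TopologicalSpace.Opens.mem_top _) =
        str.appLE ⊤ V e ≫ X.germToFunctionField V := by
      rw [Scheme.Hom.appLE, Category.assoc]
      erw [X.presheaf.germ_res]
      rfl
    change ffStr str = _
    rw [ffStr, h]
    rfl
  haveI : IsFractionRing Γ(X, V) X.functionField :=
    functionField_isFractionRing_of_isAffineOpen X V hV
  haveI : IsDomain Γ(X, V) := inferInstance
  haveI : Algebra.IsStandardSmoothOfRelativeDimension g K Γ(X, V) :=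
    RingHom.isStandardSmoothOfRelativeDimension_respectsIso.2 (str.appLE ⊤ V e).hom
      (Scheme.ΓSpecIso (CommRingCat.of K)).symm.commRingCatIsoToRingEquiv hsm
  exact trdeg_fractionRing_of_isStandardSmooth K Γ(X, V) X.functionField g

/-- **FF5 / AMPLE-IND.** On an integral scheme, smooth of relative dimension `g` over a perfect
field, a system of `g + 1` rational functions of finite (positive) degree has algebraically
independent affine coordinates. -/
theorem ls_indep_of_deg_pos [PerfectField K] (g : ℕ) [SmoothOfRelativeDimension g str]
    (w : Fin (g + 1) → X.functionField) (h : 0 < LS.deg str w) : LS.Indep str w := by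
  letI := ffAlgebra str
  have htr := trdeg_functionField str g
  haveI hfin : Module.Finite (LS.coordField str w) X.functionField :=
    Module.finite_of_finrank_pos h
  haveI halg : Algebra.IsAlgebraic (LS.coordField str w) X.functionField :=
    Algebra.IsAlgebraic.of_finite _ _
  haveI : Algebra.IsAlgebraic (IntermediateField.adjoin K (Set.range (LS.ratios w)))
      X.functionField := by
    refine ⟨fun y => ?_⟩
    let f : LS.coordField str w →+* IntermediateField.adjoin K (Set.range (LS.ratios w)) :=
      { toFun := fun x => ⟨x.1, x.2⟩
        map_one' := rfl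
        map_mul' := fun _ _ => rfl
        map_zero' := rfl
        map_add' := fun _ _ => rfl }
    have hf : Function.Injective f := fun a b hab => Subtype.ext (congrArg Subtype.val hab)
    exact (halg.isAlgebraic y).ringHom_of_comp_eq f (RingHom.id X.functionField) hf rfl
  have hind := algebraicIndependent_of_isAlgebraic_of_trdeg htr (LS.ratios w)
  rw [algebraicIndependent_iff] at hind
  intro p hp
  exact hind p (by rw [MvPolynomial.aeval_def]; exact hp)

end Scheme

/-- **AMPLE-IND** for abelian varieties: the independence clause of `Stmt.Alpha` follows from the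
positivity of the degree. -/
theorem abVar_indep_of_deg_pos {K : Type u} [Field K] [PerfectField K] (X : AbVar K)
    [IsIntegral X.A] (w : Fin (X.dim + 1) → X.A.functionField) (h : 0 < LS.deg X.str w) :
    LS.Indep X.str w :=
  haveI := X.smoothDim
  ls_indep_of_deg_pos X.str X.dim w h

end Fermat.Agent.S26.H86
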